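import Fermat.Statements.S09

/-!
Wiring for S09 (Mazur irreducibility of the Frey mod-p representation):
S09 follows formally from S13 (reducible ⇒ cofixed line) and S10/S11/S12 (no cofixed line
for p ∈ {5,7,13}, p = 11, p ≥ 17).  This file proves that implication with the four
inputs as hypotheses, so it builds standalone.
-/

set_option autoImplicit false
open WeierstrassCurve WeierstrassCurve.Affine WeierstrassCurve.Affine.Point

namespace Fermat.Agent.S09

/-- A prime `p ≥ 5` is in `{5, 7, 13}`, or equals `11`, or is `≥ 17`. -/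
theorem prime_ge_five_cases {p : ℕ} (pp : p.Prime) (hp5 : 5 ≤ p) :
    (p = 5 ∨ p = 7 ∨ p = 13) ∨ p = 11 ∨ 17 ≤ p := by
  by_contra h
  push Not at h
  obtain ⟨⟨h5, h7, h13⟩, h11, h17⟩ := h
  have hlt : p < 17 := h17
  interval_cases p <;> first | omega | (exact absurd pp (by decide))

/-- S09 from S10, S11, S12, S13 (given as hypotheses for a fixed Frey package). -/
theorem of_parts (P : FreyPackage)
    (h10 : (P.p = 5 ∨ P.p = 7 ∨ P.p = 13) →
      ¬ HasGaloisStableCofixedLine (K := AlgebraicClosure ℚ) ℚ P.freyCurve P.p)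
    (h11 : P.p = 11 →
      ¬ HasGaloisStableCofixedLine (K := AlgebraicClosure ℚ) ℚ P.freyCurve P.p)
    (h12 : 17 ≤ P.p →
      ¬ HasGaloisStableCofixedLine (K := AlgebraicClosure ℚ) ℚ P.freyCurve P.p)
    (h13 : ¬ GaloisRepIsIrreducible (K := AlgebraicClosure ℚ) ℚ P.freyCurve P.p →
      HasGaloisStableCofixedLine (K := AlgebraicClosure ℚ) ℚ P.freyCurve P.p) :
    GaloisRepIsIrreducible (K := AlgebraicClosure ℚ) ℚ P.freyCurve P.p := by
  by_contra hred
  have hline := h13 hred
  rcases prime_ge_five_cases P.pp P.hp5 with h | h | h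
  · exact h10 h hline
  · exact h11 h hline
  · exact h12 h hline

end Fermat.Agent.S09
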